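import Fermat.Agent.S48.Cheb.Crossing.Pointwise
import Fermat.Agent.S14.Analytic.NormClassPrimes

/-!
# S48 P5 seat (D) crossing, part 3: counting

`idealCount F p ≤ [F : E] * frobCount E L (g ^ k) p` for `F = K^⟨σ⟩`, `g = σ|_L`, when
`p² ≡ (a^k)² mod t`.
-/

set_option autoImplicit false

open NumberField IsDedekindDomain

namespace Fermat.Agent.S48Cheb

open Fermat.Agent.FrobDensity (normWeight idealCount)

theorem crs_finite_fibre (E F : Type) [Field E] [NumberField E] [Field F] [NumberField F]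
    [Algebra E F] (p : ℕ) (𝔮 : Ideal (𝓞 E)) :
    Finite {𝔓 : Ideal (𝓞 F) // Ideal.absNorm 𝔓 = p ∧ 𝔓.under (𝓞 E) = 𝔮} := by
  have h0 : Finite {𝔓 : Ideal (𝓞 F) // Ideal.absNorm 𝔓 = p} :=
    Ideal.finite_setOfPred_absNorm_eq p
  exact Finite.of_injective
      (fun y : {𝔓 : Ideal (𝓞 F) // Ideal.absNorm 𝔓 = p ∧ 𝔓.under (𝓞 E) = 𝔮} =>
        (⟨y.1, y.2.1⟩ : {𝔓 : Ideal (𝓞 F) // Ideal.absNorm 𝔓 = p}))
      (fun a b h => Subtype.ext (congrArg (fun z : {𝔓 : Ideal (𝓞 F) // Ideal.absNorm 𝔓 = p} => z.1) h))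

/-- At most `[F : E]` ideals of `𝓞 F` of norm `p` lie over a given ideal of `𝓞 E`. -/
theorem crs_card_fibre_le (E F : Type) [Field E] [NumberField E] [Field F] [NumberField F]
    [Algebra E F] {p : ℕ} (hp : p.Prime) (𝔮 : Ideal (𝓞 E)) (h𝔮 : Ideal.absNorm 𝔮 = p) :
    Nat.card {𝔓 : Ideal (𝓞 F) // Ideal.absNorm 𝔓 = p ∧ 𝔓.under (𝓞 E) = 𝔮} ≤
      Module.finrank E F := by
  classical
  have hfin := crs_finite_fibre E F p 𝔮
  letI := Fintype.ofFinite {𝔓 : Ideal (𝓞 F) // Ideal.absNorm 𝔓 = p ∧ 𝔓.under (𝓞 E) = 𝔮}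
  have hne : ∀ {R : Type} [CommRing R] [IsDedekindDomain R] [Module.Free ℤ R] [Module.Finite ℤ R]
      (I : Ideal R), Ideal.absNorm I = p → I ≠ ⊥ := by
    intro R _ _ _ _ I hI hbot
    rw [hbot, Ideal.absNorm_bot] at hI
    exact hp.ne_zero hI.symm
  let 𝔮' : HeightOneSpectrum (𝓞 E) :=
    ⟨𝔮, FrobDensity.isPrime_of_absNorm_eq_prime hp h𝔮, hne 𝔮 h𝔮⟩
  let f : {𝔓 : Ideal (𝓞 F) // Ideal.absNorm 𝔓 = p ∧ 𝔓.under (𝓞 E) = 𝔮} →
      HeightOneSpectrum (𝓞 F) :=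
    fun 𝔓 => ⟨𝔓.1, FrobDensity.isPrime_of_absNorm_eq_prime hp 𝔓.2.1, hne 𝔓.1 𝔓.2.1⟩
  have hf : Function.Injective f := by
    intro x y hxy
    apply Subtype.ext
    exact congrArg HeightOneSpectrum.asIdeal hxy
  have hT : ∀ 𝔔 ∈ Finset.univ.image f, 𝔔.under (𝓞 E) = 𝔮' := by
    intro 𝔔 h𝔔
    obtain ⟨x, -, rfl⟩ := Finset.mem_image.mp h𝔔
    apply HeightOneSpectrum.ext
    exact x.2.2
  have h1 := S14An.p7_card_fiber_le E F 𝔮' (Finset.univ.image f) hT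
  rw [Finset.card_image_of_injective _ hf, Finset.card_univ] at h1
  rwa [Nat.card_eq_fintype_card]

/-- A map between finite types with fibres of size `≤ n`. -/
theorem crs_card_le_mul {X Y : Type*} [Finite X] [Finite Y] (π : X → Y) (n : ℕ)
    (h : ∀ y : Y, Nat.card {x : X // π x = y} ≤ n) : Nat.card X ≤ n * Nat.card Y := by
  classical
  letI := Fintype.ofFinite Y
  rw [Nat.card_congr (Equiv.sigmaFiberEquiv π).symm, Nat.card_sigma]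
  calc ∑ y : Y, Nat.card {x : X // π x = y} ≤ ∑ _y : Y, n := Finset.sum_le_sum fun y _ => h y
    _ = n * Nat.card Y := by
      rw [Finset.sum_const, Finset.card_univ, smul_eq_mul, Nat.card_eq_fintype_card, mul_comm]

section

variable {E L K : Type} [Field E] [NumberField E] [Field L] [NumberField L] [Field K]
  [NumberField K] [Algebra E L] [Algebra L K] [Algebra E K] [IsScalarTower E L K] [IsGalois E L]
  [IsGalois E K]

omit [NumberField L] [IsGalois E L] in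
theorem crs_finite_frob (g : L ≃ₐ[E] L) (p : ℕ) :
    Finite {𝔮 : Ideal (𝓞 E) // Ideal.absNorm 𝔮 = p ∧
      ∃ P : Ideal (𝓞 L), P.IsPrime ∧ P.LiesOver 𝔮 ∧ ∀ x : 𝓞 L, g • x - x ^ p ∈ P} := by
  have h0 : Finite {𝔮 : Ideal (𝓞 E) // Ideal.absNorm 𝔮 = p} :=
    Ideal.finite_setOfPred_absNorm_eq p
  exact Finite.of_injective
    (fun y : {𝔮 : Ideal (𝓞 E) // Ideal.absNorm 𝔮 = p ∧
      ∃ P : Ideal (𝓞 L), P.IsPrime ∧ P.LiesOver 𝔮 ∧ ∀ x : 𝓞 L, g • x - x ^ p ∈ P} =>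
        (⟨y.1, y.2.1⟩ : {𝔮 : Ideal (𝓞 E) // Ideal.absNorm 𝔮 = p}))
    (fun a b h => Subtype.ext (congrArg (fun z : {𝔮 : Ideal (𝓞 E) // Ideal.absNorm 𝔮 = p} => z.1) h))

omit [IsGalois E L] in
/-- `frobCount E L g p ≤ idealCount E p`. -/
theorem crs_frobCount_le (g : L ≃ₐ[E] L) (p : ℕ) : frobCount E L g p ≤ idealCount E p := by
  have h0 : Finite {𝔮 : Ideal (𝓞 E) // Ideal.absNorm 𝔮 = p} :=
    Ideal.finite_setOfPred_absNorm_eq p
  exact Nat.card_le_card_of_injective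
    (fun y : {𝔮 : Ideal (𝓞 E) // Ideal.absNorm 𝔮 = p ∧
      ∃ P : Ideal (𝓞 L), P.IsPrime ∧ P.LiesOver 𝔮 ∧ ∀ x : 𝓞 L, g • x - x ^ p ∈ P} =>
        (⟨y.1, y.2.1⟩ : {𝔮 : Ideal (𝓞 E) // Ideal.absNorm 𝔮 = p}))
    (fun a b h => Subtype.ext (congrArg (fun z : {𝔮 : Ideal (𝓞 E) // Ideal.absNorm 𝔮 = p} => z.1) h))

/-- The pointwise inequality of the crossing. -/
theorem crs_idealCount_le (hC2 : CycArtin) {t : ℕ} (ht : t.Prime) {ζ : K}
    (hζ : IsPrimitiveRoot ζ t) (σ : K ≃ₐ[E] K) (a : (ZMod t)ˣ)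
    (hσ : σ ζ = ζ ^ ((a : (ZMod t)ˣ) : ZMod t).val)
    (h1 : ∀ j : ℕ, a ^ j = 1 → σ ^ j = 1)
    (j : ℕ) (hj : a ^ j = -1) (hjL : AlgEquiv.restrictNormalHom L (σ ^ j) = 1)
    {p : ℕ} (hp : p.Prime) (k : ℕ)
    (hpa : ((p : ℕ) : ZMod t) ^ 2 = (((a ^ k : (ZMod t)ˣ) : (ZMod t)ˣ) : ZMod t) ^ 2) :
    idealCount (crsF E K σ) p ≤
      Module.finrank E (crsF E K σ) * frobCount E L ((AlgEquiv.restrictNormalHom L σ) ^ k) p := by
  classical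
  unfold idealCount frobCount
  have hX : Finite {I : Ideal (𝓞 (crsF E K σ)) // Ideal.absNorm I = p} :=
    Ideal.finite_setOfPred_absNorm_eq p
  have hY := crs_finite_frob (E := E) (L := L) ((AlgEquiv.restrictNormalHom L σ) ^ k) p
  let π : {I : Ideal (𝓞 (crsF E K σ)) // Ideal.absNorm I = p} →
      {𝔮 : Ideal (𝓞 E) // Ideal.absNorm 𝔮 = p ∧
        ∃ P : Ideal (𝓞 L), P.IsPrime ∧ P.LiesOver 𝔮 ∧
          ∀ x : 𝓞 L, ((AlgEquiv.restrictNormalHom L σ) ^ k) • x - x ^ p ∈ P} :=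
    fun 𝔓 => ⟨𝔓.1.under (𝓞 E),
      crs_frob_of_prime hC2 ht hζ σ a hσ h1 j hj hjL hp 𝔓.1 𝔓.2 k hpa⟩
  refine crs_card_le_mul π _ fun y => ?_
  refine le_trans ?_ (crs_card_fibre_le E (crsF E K σ) hp y.1 y.2.1)
  have hfib := crs_finite_fibre E (crsF E K σ) p y.1
  refine Nat.card_le_card_of_injective
    (fun x : {x // π x = y} => (⟨x.1.1, x.1.2, congrArg Subtype.val x.2⟩ :
      {𝔓 : Ideal (𝓞 (crsF E K σ)) // Ideal.absNorm 𝔓 = p ∧ 𝔓.under (𝓞 E) = y.1})) ?_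
  intro x x' hxx'
  apply Subtype.ext
  apply Subtype.ext
  exact congrArg (fun z : {𝔓 : Ideal (𝓞 (crsF E K σ)) //
    Ideal.absNorm 𝔓 = p ∧ 𝔓.under (𝓞 E) = y.1} => z.1) hxx'

end

end Fermat.Agent.S48Cheb
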