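import Fermat.Agent.S48.Cheb.Defs

/-!
# S48 P5 seat (D) crossing, part 1: the fixed field of `⟨σ⟩` and its cyclotomic character

`crsF E K σ = K^⟨σ⟩`; every element of `Gal(K/F)` is a power `σ ^ i`, and its cyclotomic
character is `a ^ i` when `σ ζ = ζ ^ a`.
-/

set_option autoImplicit false

open NumberField IsDedekindDomain

namespace Fermat.Agent.S48Cheb

section

variable (E K : Type) [Field E] [Field K] [Algebra E K] [FiniteDimensional E K]

/-- The fixed field of `⟨σ⟩`. -/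
noncomputable abbrev crsF (σ : K ≃ₐ[E] K) : IntermediateField E K :=
  IntermediateField.fixedField (Subgroup.zpowers σ)

variable {E K}

/-- Every element of `Gal(K/F)`, `F = K^⟨σ⟩`, is a power of `σ`. -/
theorem crs_exists_pow (σ : K ≃ₐ[E] K) (τ : K ≃ₐ[crsF E K σ] K) :
    ∃ i : ℕ, τ.restrictScalars E = σ ^ i := by
  have hmem : τ.restrictScalars E ∈ (crsF E K σ).fixingSubgroup := by
    rw [IntermediateField.mem_fixingSubgroup_iff]
    intro x hx
    exact τ.commutes ⟨x, hx⟩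
  rw [IntermediateField.fixingSubgroup_fixedField] at hmem
  have hfin : IsOfFinOrder σ := isOfFinOrder_of_finite σ
  rw [← mem_powers_iff_mem_zpowers, Submonoid.mem_powers_iff] at hmem
  obtain ⟨i, hi⟩ := hmem
  exact ⟨i, hi.symm⟩

/-- `σ ^ i` as an element of `Gal(K/F)`. -/
noncomputable def crsPow (σ : K ≃ₐ[E] K) (i : ℕ) : K ≃ₐ[crsF E K σ] K :=
  (crsF E K σ).fixingSubgroupEquiv ⟨σ ^ i, by
    rw [IntermediateField.fixingSubgroup_fixedField]
    exact Subgroup.pow_mem _ (Subgroup.mem_zpowers σ) i⟩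

theorem crsPow_restrictScalars (σ : K ≃ₐ[E] K) (i : ℕ) :
    (crsPow σ i).restrictScalars E = σ ^ i := by
  ext x
  rfl

theorem crsPow_apply (σ : K ≃ₐ[E] K) (i : ℕ) (x : K) : crsPow σ i x = (σ ^ i) x := rfl

omit [FiniteDimensional E K] in
theorem crs_eq_of_restrictScalars (σ : K ≃ₐ[E] K) {τ τ' : K ≃ₐ[crsF E K σ] K}
    (h : τ.restrictScalars E = τ'.restrictScalars E) : τ = τ' := by
  ext x
  have := congrArg (fun f : K ≃ₐ[E] K => f x) h
  exact this

end

section char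

variable {E K : Type} [Field E] [Field K] [Algebra E K] [FiniteDimensional E K]
  {t : ℕ} [NeZero t] {ζ : K} (hζ : IsPrimitiveRoot ζ t)

include hζ

omit [FiniteDimensional E K] [NeZero t] in
theorem crs_pow_apply_zeta {σ : K ≃ₐ[E] K} {a : (ZMod t)ˣ}
    (hσ : σ ζ = ζ ^ ((a : (ZMod t)ˣ) : ZMod t).val) (i : ℕ) :
    (σ ^ i) ζ = ζ ^ (((a ^ i : (ZMod t)ˣ) : (ZMod t)ˣ) : ZMod t).val := by
  induction i with
  | zero =>
    simp only [pow_zero, AlgEquiv.one_apply, Units.val_one]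
    rw [ZMod.val_one_eq_one_mod, ← pow_eq_pow_mod 1 hζ.pow_eq_one, pow_one]
  | succ i ih =>
    rw [pow_succ', AlgEquiv.mul_apply, ih, map_pow, hσ, ← pow_mul]
    have h1 : (((a ^ (i + 1) : (ZMod t)ˣ) : (ZMod t)ˣ) : ZMod t) =
        ((a : (ZMod t)ˣ) : ZMod t) * (((a ^ i : (ZMod t)ˣ) : (ZMod t)ˣ) : ZMod t) := by
      rw [pow_succ', Units.val_mul]
    rw [h1, ZMod.val_mul, ← pow_eq_pow_mod _ hζ.pow_eq_one]

omit [FiniteDimensional E K] in
/-- The cyclotomic character of `τ ∈ Gal(K/F)` with `τ = σ ^ i` is `a ^ i`. -/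
theorem crs_autToPow_eq {σ : K ≃ₐ[E] K} {a : (ZMod t)ˣ}
    (hσ : σ ζ = ζ ^ ((a : (ZMod t)ˣ) : ZMod t).val) (τ : K ≃ₐ[crsF E K σ] K) (i : ℕ)
    (hτ : τ.restrictScalars E = σ ^ i) :
    hζ.autToPow (crsF E K σ) τ = a ^ i := by
  have h1 : τ ζ = (σ ^ i) ζ := by
    rw [← hτ]
    rfl
  have h2 := hζ.autToPow_spec (crsF E K σ) τ
  rw [h1, crs_pow_apply_zeta hζ hσ i] at h2
  have h3 := hζ.pow_inj (ZMod.val_lt _) (ZMod.val_lt _) h2
  exact Units.ext (ZMod.val_injective t h3)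

end char

end Fermat.Agent.S48Cheb
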