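import Fermat.Agent.S48.Cheb.Crossing.Char
import Fermat.Agent.Lib.FrobDensity.Splitting

/-!
# S48 P5 seat (D) crossing, part 2: the Frobenius of a prime of degree one of `F = K^⟨σ⟩`
-/

set_option autoImplicit false

open NumberField IsDedekindDomain

namespace Fermat.Agent.S48Cheb

section

variable {E L K : Type} [Field E] [NumberField E] [Field L] [NumberField L] [Field K]
  [NumberField K] [Algebra E L] [Algebra L K] [Algebra E K] [IsScalarTower E L K] [IsGalois E L]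
  [IsGalois E K]

/-- In `(ℤ/t)ˣ` (`t` prime), `x² = y²` implies `x = y` or `x = -y`. -/
theorem crs_sq_eq_sq {t : ℕ} (ht : t.Prime) {x y : ZMod t} (h : x ^ 2 = y ^ 2) :
    x = y ∨ x = -y := by
  haveI : Fact t.Prime := ⟨ht⟩
  exact sq_eq_sq_iff_eq_or_eq_neg.mp h

/-- `a ^ i = a ^ k` implies `σ ^ i = σ ^ k` when `a ^ j = 1 → σ ^ j = 1`. -/
theorem crs_pow_eq {G H : Type*} [Group G] [Group H] {a : G} {σ : H}
    (h1 : ∀ j : ℕ, a ^ j = 1 → σ ^ j = 1) {i k : ℕ} (h : a ^ i = a ^ k) : σ ^ i = σ ^ k := by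
  have hdvd : orderOf σ ∣ orderOf a := orderOf_dvd_of_pow_eq_one (h1 _ (pow_orderOf_eq_one a))
  rw [pow_eq_pow_iff_modEq] at h ⊢
  exact h.of_dvd hdvd

/-- The key pointwise step: a prime `𝔓` of `F = K^⟨σ⟩` of prime norm `p` with
`p² ≡ (a^k)² mod t` lies over a prime `𝔮` of `E` of norm `p` at which `(σ|_L)^k` is a
Frobenius. -/
theorem crs_frob_of_prime (hC2 : CycArtin) {t : ℕ} (ht : t.Prime) {ζ : K}
    (hζ : IsPrimitiveRoot ζ t) (σ : K ≃ₐ[E] K) (a : (ZMod t)ˣ)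
    (hσ : σ ζ = ζ ^ ((a : (ZMod t)ˣ) : ZMod t).val)
    (h1 : ∀ j : ℕ, a ^ j = 1 → σ ^ j = 1)
    (j : ℕ) (hj : a ^ j = -1) (hjL : AlgEquiv.restrictNormalHom L (σ ^ j) = 1)
    {p : ℕ} (hp : p.Prime) (𝔓 : Ideal (𝓞 (crsF E K σ))) (h𝔓 : Ideal.absNorm 𝔓 = p) (k : ℕ)
    (hpa : ((p : ℕ) : ZMod t) ^ 2 = (((a ^ k : (ZMod t)ˣ) : (ZMod t)ˣ) : ZMod t) ^ 2) :
    Ideal.absNorm (𝔓.under (𝓞 E)) = p ∧
    ∃ P : Ideal (𝓞 L), P.IsPrime ∧ P.LiesOver (𝔓.under (𝓞 E)) ∧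
      ∀ x : 𝓞 L, ((AlgEquiv.restrictNormalHom L σ) ^ k) • x - x ^ p ∈ P := by
  haveI : NeZero t := ⟨ht.ne_zero⟩
  haveI : Fact t.Prime := ⟨ht⟩
  have h𝔓prime : 𝔓.IsPrime := FrobDensity.isPrime_of_absNorm_eq_prime hp h𝔓
  have h𝔓0 : 𝔓 ≠ ⊥ := by
    rintro rfl
    rw [Ideal.absNorm_bot] at h𝔓
    exact hp.ne_zero h𝔓.symm
  have h𝔓max : 𝔓.IsMaximal := h𝔓prime.isMaximal h𝔓0
  obtain ⟨Pt, hPtmax, hPtover⟩ :=
    Ideal.exists_maximal_ideal_liesOver_of_isIntegral (S := 𝓞 K) 𝔓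
  have hPt : Pt.IsPrime := hPtmax.isPrime
  have hPt𝔓 : Pt.under (𝓞 (crsF E K σ)) = 𝔓 := hPtover.over.symm
  have hPt0 : Pt ≠ ⊥ := Ideal.ne_bot_of_liesOver_of_ne_bot h𝔓0 Pt
  have : Finite (𝓞 K ⧸ Pt) := Ideal.finiteQuotientOfFreeOfNeBot Pt hPt0
  obtain ⟨φ, hφ⟩ := IsArithFrobAt.exists_of_isInvariant (𝓞 (crsF E K σ))
    (K ≃ₐ[crsF E K σ] K) Pt
  have hcard : Nat.card (𝓞 (crsF E K σ) ⧸ 𝔓) = p := by
    rw [← h𝔓, Ideal.absNorm_apply, Submodule.cardQuot_apply]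
  have hφ' : ∀ x : 𝓞 K, φ • x - x ^ p ∈ Pt := by
    intro x
    have h := hφ x
    rw [hPt𝔓, hcard] at h
    exact h
  -- `t ∉ Pt`
  have hpt : ¬ t ∣ p := by
    intro hdvd
    have h0 : ((p : ℕ) : ZMod t) = 0 := (ZMod.natCast_eq_zero_iff p t).mpr hdvd
    rw [h0] at hpa
    have hne : (((a ^ k : (ZMod t)ˣ) : (ZMod t)ˣ) : ZMod t) ^ 2 ≠ 0 :=
      pow_ne_zero _ (Units.ne_zero _)
    exact hne (by rw [← hpa]; ring)
  have hpPt : (p : 𝓞 K) ∈ Pt := by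
    have h1' : (p : 𝓞 (crsF E K σ)) ∈ 𝔓 := FrobDensity.natCast_mem_of_absNorm_eq h𝔓
    rw [← hPt𝔓, Ideal.under_def, Ideal.mem_comap] at h1'
    simpa using h1'
  have htPt : (t : 𝓞 K) ∉ Pt := by
    intro htm
    have hcop : Nat.Coprime p t :=
      (Nat.coprime_primes hp ht).mpr (fun h => hpt (h ▸ dvd_rfl))
    obtain ⟨u, v, huv⟩ := Nat.Coprime.isCoprime hcop
    have h3 : (((u * (p : ℤ) + v * (t : ℤ) : ℤ)) : 𝓞 K) = 1 := by
      rw [huv]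
      simp
    have h4 : (1 : 𝓞 K) ∈ Pt := by
      rw [← h3]
      push_cast
      exact Pt.add_mem (Pt.mul_mem_left _ hpPt) (Pt.mul_mem_left _ htm)
    exact hPt.ne_top ((Ideal.eq_top_iff_one _).mpr h4)
  -- the cyclotomic character of `φ`
  have hχ : ((p : ℕ) : ZMod t) = ((hζ.autToPow (crsF E K σ) φ : (ZMod t)ˣ) : ZMod t) := by
    have h := hC2 (crsF E K σ) K t ht ζ hζ Pt hPt htPt φ p
      ((hζ.autToPow (crsF E K σ) φ : (ZMod t)ˣ) : ZMod t).val hφ'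
      (hζ.autToPow_spec (crsF E K σ) φ).symm
    rw [h, ZMod.natCast_zmod_val]
  obtain ⟨i, hi⟩ := crs_exists_pow σ φ
  have hχi := crs_autToPow_eq hζ hσ φ i hi
  rw [hχi] at hχ
  rw [hχ] at hpa
  have hcases := crs_sq_eq_sq ht hpa
  have hres : AlgEquiv.restrictNormalHom L (σ ^ i) = (AlgEquiv.restrictNormalHom L σ) ^ k := by
    rcases hcases with h | h
    · have h' : a ^ i = a ^ k := Units.ext h
      rw [crs_pow_eq h1 h', map_pow]
    · have h' : a ^ i = a ^ (k + j) := by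
        apply Units.ext
        rw [h, pow_add, hj]
        simp
      rw [crs_pow_eq h1 h', pow_add, map_mul, hjL, mul_one, map_pow]
  refine ⟨(FrobDensity.absNorm_under_and_inertiaDeg E (crsF E K σ) hp h𝔓).1,
    Pt.under (𝓞 L), Ideal.IsPrime.under (𝓞 L) Pt, ?_, ?_⟩
  · constructor
    rw [← hPt𝔓, Ideal.under_under, Ideal.under_under]
  · intro x
    rw [Ideal.under_def, Ideal.mem_comap, ← hres]
    have hcomm : ∀ y : L, algebraMap L K ((AlgEquiv.restrictNormalHom L (σ ^ i)) y) =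
        φ (algebraMap L K y) := by
      intro y
      rw [← hi]
      exact AlgEquiv.restrictNormal_commutes _ L y
    generalize AlgEquiv.restrictNormalHom L (σ ^ i) = g' at hcomm ⊢
    have h5 := hφ' (algebraMap (𝓞 L) (𝓞 K) x)
    have h6 : algebraMap (𝓞 L) (𝓞 K) (g' • x - x ^ p) =
        φ • (algebraMap (𝓞 L) (𝓞 K) x) - (algebraMap (𝓞 L) (𝓞 K) x) ^ p := by
      apply RingOfIntegers.ext
      change algebraMap L K ((g' (x : L)) - (x : L) ^ p) =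
        φ (algebraMap L K (x : L)) - (algebraMap L K (x : L)) ^ p
      rw [map_sub, map_pow, hcomm]
    rw [h6]
    exact h5

end

end Fermat.Agent.S48Cheb
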